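import Mathlib
import Fermat.Prelude.Def_FLTPrelim_FreyPackage
import Fermat.Prelude.Def_FLTPrelim_GaloisRep
import Fermat.Prelude.Def_FLTPrelim_Modularity
import Fermat.Prelude.Def_FLTPrelim_ModularRep
import Fermat.Prelude.Def_FLTPrelim_Ramification
import Fermat.Prelude.Def_FLTPrelim_CofixedLine

/-!
Glue lemmas (conditional form): the top of the dependency tree.

* `Fermat.Agent.Glue.noFreyPackage_of_parts` : S03 from S04 + S09 + S45 + S07.
* `Fermat.Agent.Glue.irreducible_of_parts`   : S09 from S10 + S11 + S12 + S13.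
* `Fermat.Agent.Glue.flt_of_parts`           : S01 from S02 + S03 (+ Mathlib n = 3, 4).
-/

set_option autoImplicit false
open WeierstrassCurve WeierstrassCurve.Affine WeierstrassCurve.Affine.Point

namespace Fermat.Agent.Glue

/-- S03 from S04, S09, S45 and S07. -/
theorem noFreyPackage_of_parts
    (h04 : ∀ P : FreyPackage, P.freyCurve.IsModular)
    (h09 : ∀ P : FreyPackage,
      GaloisRepIsIrreducible (K := AlgebraicClosure ℚ) ℚ P.freyCurve P.p)
    (h45 : ∀ P : FreyPackage, P.freyCurve.IsModular →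
      GaloisRepIsIrreducible (K := AlgebraicClosure ℚ) ℚ P.freyCurve P.p →
      ∃ f : CuspForm (CongruenceSubgroup.Gamma0 2) 2, f ≠ 0)
    (h07 : ∀ f : CuspForm (CongruenceSubgroup.Gamma0 2) 2, f = 0)
    (P : FreyPackage) : False := by
  obtain ⟨f, hf⟩ := h45 P (h04 P) (h09 P)
  exact hf (h07 f)

/-- S09 from S10, S11, S12 and S13. -/
theorem irreducible_of_parts
    (h10 : ∀ P : FreyPackage, (P.p = 5 ∨ P.p = 7 ∨ P.p = 13) →
      ¬ HasGaloisStableCofixedLine (K := AlgebraicClosure ℚ) ℚ P.freyCurve P.p)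
    (h11 : ∀ P : FreyPackage, P.p = 11 →
      ¬ HasGaloisStableCofixedLine (K := AlgebraicClosure ℚ) ℚ P.freyCurve P.p)
    (h12 : ∀ P : FreyPackage, 17 ≤ P.p →
      ¬ HasGaloisStableCofixedLine (K := AlgebraicClosure ℚ) ℚ P.freyCurve P.p)
    (h13 : ∀ P : FreyPackage,
      ¬ GaloisRepIsIrreducible (K := AlgebraicClosure ℚ) ℚ P.freyCurve P.p →
      HasGaloisStableCofixedLine (K := AlgebraicClosure ℚ) ℚ P.freyCurve P.p)
    (P : FreyPackage) :
    GaloisRepIsIrreducible (K := AlgebraicClosure ℚ) ℚ P.freyCurve P.p := by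
  by_contra hred
  have hline := h13 P hred
  have hp5 := P.hp5
  have hpp := P.pp
  by_cases h17 : 17 ≤ P.p
  · exact h12 P h17 hline
  · have hlt : P.p < 17 := not_le.mp h17
    have hcases : P.p = 5 ∨ P.p = 7 ∨ P.p = 11 ∨ P.p = 13 := by
      generalize P.p = p at hp5 hpp hlt
      interval_cases p <;> first | omega | (exfalso; revert hpp; decide)
    rcases hcases with h | h | h | h
    · exact h10 P (Or.inl h) hline
    · exact h10 P (Or.inr (Or.inl h)) hline
    · exact h11 P h hline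
    · exact h10 P (Or.inr (Or.inr h)) hline

/-- FLT for a prime exponent `p ≥ 5`, over `ℤ`, from S02 and S03. -/
theorem flt_int_prime_ge_five_of_parts
    (h02 : ∀ (a b c : ℤ), a ≠ 0 → b ≠ 0 → c ≠ 0 → ∀ p : ℕ, p.Prime → 5 ≤ p →
      a ^ p + b ^ p = c ^ p → Nonempty FreyPackage)
    (h03 : FreyPackage → False)
    (p : ℕ) (pp : p.Prime) (hp5 : 5 ≤ p) : FermatLastTheoremFor p := by
  rw [fermatLastTheoremFor_iff_int]
  intro a b c ha hb hc H
  obtain ⟨P⟩ := h02 a b c ha hb hc p pp hp5 H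
  exact h03 P

/-- S01 from S02 and S03 (the cases `n = 3` and `n = 4` are in Mathlib). -/
theorem flt_of_parts
    (h02 : ∀ (a b c : ℤ), a ≠ 0 → b ≠ 0 → c ≠ 0 → ∀ p : ℕ, p.Prime → 5 ≤ p →
      a ^ p + b ^ p = c ^ p → Nonempty FreyPackage)
    (h03 : FreyPackage → False)
    (n : ℕ) (hn : 3 ≤ n) (a b c : ℕ) (ha : 0 < a) (hb : 0 < b) (hc : 0 < c) :
    a ^ n + b ^ n ≠ c ^ n := by
  have hFLT : FermatLastTheorem := by
    apply FermatLastTheorem.of_odd_primes
    intro p pp hodd
    by_cases h5 : 5 ≤ p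
    · exact flt_int_prime_ge_five_of_parts h02 h03 p pp h5
    · have hp3 : p = 3 := by
        have hlt : p < 5 := not_le.mp h5
        have h2 := pp.two_le
        interval_cases p
        · exact absurd hodd (by decide)
        · rfl
        · exact absurd pp (by decide)
      subst hp3
      exact fermatLastTheoremThree
  exact hFLT n hn a b c ha.ne' hb.ne' hc.ne'

end Fermat.Agent.Glue
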